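import Fermat.Agent.GaussDigamma.Main

/-!
# Finite differences of `1/(c + j)`, of `1/j` and of digamma

`∑_{j ≤ k} (-1) ^ j C(k, j) / (c + j) = k! / ∏_{i ≤ k} (c + i)`; the differences of `1/j`, with
`1/0 = 0`, are minus the harmonic numbers; those of `ψ` are `O(1/k)`.
-/

set_option autoImplicit false

noncomputable section

open Filter Topology Finset
open scoped Real

namespace FA.EulerKroneckerFamilies

variable {R : Type*}

/-- `∑_{j ≤ k} (-1) ^ j C(k, j) f j`. -/
def altSum [Ring R] (k : ℕ) (f : ℕ → R) : R :=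
  ∑ j ∈ Finset.range (k + 1), (-1) ^ j * (k.choose j : R) * f j

theorem altSum_succ [CommRing R] (k : ℕ) (f : ℕ → R) :
    altSum (k + 1) f = altSum k f - altSum k fun j => f (j + 1) := by
  have e : altSum k f = (∑ j ∈ Finset.range (k + 1),
      (-1) ^ (j + 1) * (k.choose (j + 1) : R) * f (j + 1)) + f 0 := by
    rw [Finset.sum_range_succ, Nat.choose_succ_self, Nat.cast_zero, mul_zero, zero_mul, add_zero,
      altSum, Finset.sum_range_succ']
    simp
  rw [e, altSum, Finset.sum_range_succ', altSum]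
  simp only [Nat.choose_succ_succ', Nat.cast_add, mul_add, add_mul, Finset.sum_add_distrib,
    pow_succ, Nat.choose_zero_right, pow_zero, Nat.cast_one, one_mul]
  simp only [mul_neg_one, neg_mul, Finset.sum_neg_distrib]
  ring

theorem altSum_const [CommRing R] {k : ℕ} (hk : 1 ≤ k) (c : R) :
    altSum k (fun _ => c) = 0 := by
  obtain ⟨m, rfl⟩ : ∃ m, k = m + 1 := ⟨k - 1, by omega⟩
  rw [altSum_succ, sub_self]

theorem altSum_add [CommRing R] (k : ℕ) (f h : ℕ → R) :
    altSum k (fun j => f j + h j) = altSum k f + altSum k h := by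
  simp only [altSum, mul_add, Finset.sum_add_distrib]

theorem altSum_sub [CommRing R] (k : ℕ) (f h : ℕ → R) :
    altSum k (fun j => f j - h j) = altSum k f - altSum k h := by
  simp only [altSum, mul_sub, Finset.sum_sub_distrib]

theorem altSum_mul_left [CommRing R] (k : ℕ) (c : R) (f : ℕ → R) :
    altSum k (fun j => c * f j) = c * altSum k f := by
  simp only [altSum, Finset.mul_sum]
  exact Finset.sum_congr rfl fun j _ => by ring

theorem altSum_inv_add [Field R] (k : ℕ) {c : R} (hc : ∀ i : ℕ, c + i ≠ 0) :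
    altSum k (fun j : ℕ => (c + j)⁻¹) =
      (k.factorial : R) / ∏ i ∈ Finset.range (k + 1), (c + i) := by
  induction k generalizing c with
  | zero => simp [altSum]
  | succ k ih =>
    have hc' : ∀ i : ℕ, c + 1 + i ≠ 0 := fun i => by
      simpa [add_assoc, add_comm (1 : R)] using hc (i + 1)
    rw [altSum_succ, ih hc, show (fun j : ℕ => (c + ((j + 1 : ℕ) : R))⁻¹) =
      fun j : ℕ => (c + 1 + j)⁻¹ by funext j; push_cast; ring_nf, ih hc']
    have hp : ∀ n, ∏ i ∈ Finset.range n, (c + i) ≠ 0 := fun n =>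
      Finset.prod_ne_zero_iff.2 fun i _ => hc i
    have e1 : ∏ i ∈ Finset.range (k + 2), (c + i) =
        c * ∏ i ∈ Finset.range (k + 1), (c + 1 + i) := by
      rw [Finset.prod_range_succ', Nat.cast_zero, add_zero, mul_comm]
      exact congrArg _ (Finset.prod_congr rfl fun i _ => by push_cast; ring)
    have e2 : ∏ i ∈ Finset.range (k + 2), (c + i) =
        (∏ i ∈ Finset.range (k + 1), (c + i)) * (c + (k + 1 : ℕ)) := Finset.prod_range_succ _ _
    have hq : ∏ i ∈ Finset.range (k + 1), (c + 1 + i) ≠ 0 :=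
      Finset.prod_ne_zero_iff.2 fun i _ => hc' i
    rw [div_sub_div _ _ (hp _) hq, div_eq_div_iff (mul_ne_zero (hp _) hq) (hp _),
      Nat.factorial_succ]
    push_cast at e2 ⊢
    linear_combination ((k.factorial : R) * ∏ i ∈ Finset.range (k + 1), (c + 1 + i)) * e2 -
      ((k.factorial : R) * ∏ i ∈ Finset.range (k + 1), (c + i)) * e1

/-- **The differences of `1/j` are minus the harmonic numbers.** -/
theorem altSum_inv_nat (k : ℕ) :
    altSum k (fun j : ℕ => ((j : ℝ))⁻¹) = -(harmonic k : ℝ) := by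
  induction k with
  | zero => simp [altSum]
  | succ k ih =>
    rw [altSum_succ, ih, show (fun j : ℕ => (((j + 1 : ℕ) : ℝ))⁻¹) =
      fun j : ℕ => ((1 : ℝ) + j)⁻¹ by funext j; push_cast; ring_nf,
      altSum_inv_add k (fun i => by positivity), harmonic_succ,
      show (∏ i ∈ Finset.range (k + 1), ((1 : ℝ) + i)) = ((k + 1).factorial : ℝ) by
        rw [← Finset.prod_range_add_one_eq_factorial, Nat.cast_prod]
        exact Finset.prod_congr rfl fun i _ => by push_cast; ring,
      Nat.factorial_succ]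
    push_cast
    field_simp
    ring

theorem factorial_prod_le (a : ℕ → ℝ) (ha : ∀ i : ℕ, (i : ℝ) + 1 ≤ a i) {k : ℕ} (hk : 1 ≤ k) :
    (k.factorial : ℝ) * ((k : ℝ) + 1) * (a 0 * a 1) ≤ 2 * ∏ i ∈ Finset.range (k + 1), a i := by
  induction k, hk using Nat.le_induction with
  | base => rw [Finset.prod_range_succ, Finset.prod_range_one, Nat.factorial_one]; norm_num
  | succ k _ ih =>
    rw [Finset.prod_range_succ, Nat.factorial_succ, ← mul_assoc (2 : ℝ)]
    have h := ha (k + 1)
    push_cast at h ⊢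
    have h0 : 0 ≤ ∏ i ∈ Finset.range (k + 1), a i :=
      Finset.prod_nonneg fun i _ => le_trans (by positivity) (ha i)
    calc _ = ((k.factorial : ℝ) * ((k : ℝ) + 1) * (a 0 * a 1)) * ((k : ℝ) + 1 + 1) := by ring
      _ ≤ _ := mul_le_mul ih h (by positivity) (by linarith)

/-- **The differences of `-ψ` along `x + j s`, for `x = 2 s`.** -/
theorem altSum_neg_digamma_le {k : ℕ} (hk : 1 ≤ k) {s : ℝ} (hs : 0 < s) (hs1 : s ≤ 1 / 2) :
    altSum k (fun j : ℕ => -(Complex.digamma ((2 * s + j * s : ℝ) : ℂ)).re) ≤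
      s⁻¹ * (2 / ((k : ℝ) + 1)) := by
  have hlim : Tendsto (fun N : ℕ => altSum k fun j : ℕ =>
      -(Real.log N - ∑ m ∈ Finset.range N, (2 * s + j * s + m)⁻¹)) atTop
      (𝓝 (altSum k fun j : ℕ => -(Complex.digamma ((2 * s + j * s : ℝ) : ℂ)).re)) :=
    tendsto_finsetSum _ fun j _ => (((Complex.continuous_re.tendsto _).comp
      (FA.GaussDigamma.tendsto_digamma (x := 2 * s + j * s) (by positivity))).neg).const_mul _
  refine le_of_tendsto' hlim fun N => ?_
  simp only [neg_sub]
  rw [altSum_sub, altSum_const hk, sub_zero]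
  have hterm : ∀ m : ℕ, altSum k (fun j : ℕ => (2 * s + j * s + m)⁻¹) ≤
      s⁻¹ * (2 / ((k : ℝ) + 1)) * (1 / ((m : ℝ) + 1) - 1 / ((m : ℝ) + 2)) := fun m => by
    obtain ⟨c, hc⟩ : ∃ c, c = 2 + (m : ℝ) / s := ⟨_, rfl⟩
    have hms : 0 ≤ (m : ℝ) / s := by positivity
    have hc2 : (2 : ℝ) * (m + 1) ≤ c := by
      rw [hc]
      have : 2 * (m : ℝ) ≤ m / s := by
        rw [le_div_iff₀ hs]
        linarith [mul_le_mul_of_nonneg_left hs1 (Nat.cast_nonneg m : (0 : ℝ) ≤ _)]
      linarith
    have hc0 : 0 < c := lt_of_lt_of_le (by positivity) hc2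
    rw [show (fun j : ℕ => (2 * s + j * s + (m : ℝ))⁻¹) = fun j : ℕ => s⁻¹ * (c + j)⁻¹ by
      funext j
      rw [← mul_inv, hc]
      congr 1
      field_simp
      ring, altSum_mul_left,
      altSum_inv_add k (fun i => (add_pos_of_pos_of_nonneg hc0 (Nat.cast_nonneg i)).ne'), mul_assoc]
    refine mul_le_mul_of_nonneg_left ?_ (by positivity)
    have h := factorial_prod_le (fun i => c + i) (fun i => by linarith) hk
    rw [one_div, one_div, inv_sub_inv (by positivity) (by positivity),
      show (m : ℝ) + 2 - (m + 1) = 1 by ring, div_mul_div_comm,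
      div_le_div_iff₀ (Finset.prod_pos fun i _ => add_pos_of_pos_of_nonneg hc0 (Nat.cast_nonneg i))
        (by positivity)]
    simp only [Nat.cast_zero, Nat.cast_one, add_zero] at h
    have hcc : ((m : ℝ) + 1) * (m + 2) ≤ c * (c + 1) := by nlinarith
    linarith [mul_le_mul_of_nonneg_left hcc
      (by positivity : (0 : ℝ) ≤ (k.factorial : ℝ) * ((k : ℝ) + 1))]
  have htel : ∑ m ∈ Finset.range N, (1 / ((m : ℝ) + 1) - 1 / ((m : ℝ) + 2)) ≤ 1 := by
    rw [show ∑ m ∈ Finset.range N, (1 / ((m : ℝ) + 1) - 1 / ((m : ℝ) + 2)) =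
        1 - 1 / ((N : ℝ) + 1) by
      induction N with
      | zero => simp
      | succ n ih => rw [Finset.sum_range_succ, ih]; push_cast; ring]
    exact sub_le_self _ (by positivity)
  calc altSum k (fun j : ℕ => ∑ m ∈ Finset.range N, (2 * s + j * s + m)⁻¹)
      = ∑ m ∈ Finset.range N, altSum k fun j : ℕ => (2 * s + j * s + m)⁻¹ := by
        simp only [altSum, Finset.mul_sum]
        rw [Finset.sum_comm]
    _ ≤ ∑ m ∈ Finset.range N,
        s⁻¹ * (2 / ((k : ℝ) + 1)) * (1 / ((m : ℝ) + 1) - 1 / ((m : ℝ) + 2)) :=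
      Finset.sum_le_sum fun m _ => hterm m
    _ ≤ _ := by
      rw [← Finset.mul_sum]
      exact mul_le_of_le_one_right (by positivity) htel

end FA.EulerKroneckerFamilies

end
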