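import Fermat.Agent.EulerKroneckerFamilies.Bounds
import Fermat.Agent.EulerKroneckerFamilies.Differences

/-!
# Ihara's bound `γ_K ≤ 2 log log √|d| + O (1)`

The `k`-th difference of `re ξ'/ξ` at the points `1 + j/2` is at most `8/(k+1)` of its value at `2`
on the Riemann hypothesis. The primes enter it with the favourable sign and the poles give
`2 H_k`, so `k` about `g = log √|d|` gives the bound.
-/

set_option autoImplicit false
set_option linter.style.haveILetI false

noncomputable section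

universe u

open NumberField InfinitePlace Module Filter Topology Set IsDedekindDomain Ideal
open FA.HeckeBS FA.TsfasmanVladut FA.GeneralBrauerSiegelGRH
open FA.DedekindZeroCount FA.DedekindHadamard
open scoped Real Classical

namespace FA.EulerKroneckerFamilies

theorem altSum_pow (k : ℕ) (y : ℝ) : altSum k (fun j => y ^ j) = (1 - y) ^ k := by
  induction k with
  | zero => simp [altSum]
  | succ k ih =>
    rw [altSum_succ, show (fun j => y ^ (j + 1)) = fun j => y * y ^ j by funext j; ring,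
      altSum_mul_left, ih]
    ring

theorem altSum_ite (k : ℕ) (f : ℕ → ℝ) (a : ℝ) :
    altSum k (fun j => if j = 0 then a else f j) = altSum k f + (a - f 0) := by
  simp only [altSum, Finset.sum_range_succ' _ k, Nat.succ_ne_zero, if_false, if_true, pow_zero,
    Nat.choose_zero_right, Nat.cast_one, one_mul]
  ring

/-- The primes enter with the favourable sign. -/
theorem altSum_placeWeight_nonpos (k : ℕ) {q : ℕ} (hq : 2 ≤ q) :
    altSum k (fun j : ℕ => if j = 0 then 0 else placeWeight (1 + j / 2) q) ≤ 0 := by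
  have hq2 : (2 : ℝ) ≤ q := by exact_mod_cast hq
  obtain ⟨x, hx⟩ : ∃ x, x = (q : ℝ)⁻¹ := ⟨_, rfl⟩
  obtain ⟨y, hy⟩ : ∃ y, y = (q : ℝ) ^ (-(1 / 2) : ℝ) := ⟨_, rfl⟩
  have hx0 : 0 < x := hx ▸ by positivity
  have hy0 : 0 < y := hy ▸ Real.rpow_pos_of_pos (by linarith) _
  have hy1 : y < 1 := hy ▸ Real.rpow_lt_one_of_one_lt_of_neg (by linarith) (by norm_num)
  have hx1 : x < 1 := by rw [hx]; exact inv_lt_one_of_one_lt₀ (by linarith)
  have hser : ∀ j : ℕ, HasSum (fun m : ℕ => Real.log q * (x * y ^ j) ^ (m + 1))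
      (placeWeight (1 + j / 2) q) := fun j => by
    have hr : x * y ^ j < 1 :=
      (mul_le_of_le_one_right hx0.le (pow_le_one₀ hy0.le hy1.le)).trans_lt hx1
    have h := (((hasSum_geometric_of_lt_one (by positivity) hr).mul_left (x * y ^ j)).mul_left
      (Real.log q))
    have e : Real.log q * (x * y ^ j * (1 - x * y ^ j)⁻¹) = placeWeight (1 + j / 2) q := by
      rw [placeWeight, show (q : ℝ) ^ (1 + (j : ℝ) / 2) = (x * y ^ j)⁻¹ by
        rw [hx, hy, ← Real.rpow_natCast, ← Real.rpow_mul (by linarith), mul_inv, inv_inv,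
          ← Real.rpow_neg (by linarith), Real.rpow_add (by linarith), Real.rpow_one]
        congr 2
        ring, div_eq_mul_inv]
      congr 1
      have : 0 < x * y ^ j := by positivity
      field_simp
    rw [e] at h
    exact h.congr_fun fun m => by ring
  have hs : HasSum (fun m : ℕ => altSum k
      fun j : ℕ => if j = 0 then 0 else Real.log q * (x * y ^ j) ^ (m + 1))
      (altSum k fun j : ℕ => if j = 0 then 0 else placeWeight (1 + j / 2) q) := by
    refine hasSum_sum fun j _ => HasSum.mul_left _ ?_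
    dsimp only
    split_ifs with hj
    · exact hasSum_zero
    · exact hser j
  refine hasSum_le (fun m => ?_) hs hasSum_zero
  rw [altSum_ite, show (fun j : ℕ => Real.log q * (x * y ^ j) ^ (m + 1)) =
      fun j : ℕ => Real.log q * x ^ (m + 1) * (y ^ (m + 1)) ^ j by
      funext j; rw [mul_pow, ← pow_mul, ← pow_mul, mul_comm j, mul_assoc], altSum_mul_left,
    altSum_pow]
  have h1 : (1 - y ^ (m + 1)) ^ k ≤ 1 := pow_le_one₀ (sub_nonneg.2 (pow_le_one₀ hy0.le hy1.le))
    (sub_le_self _ (by positivity))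
  have h2 := mul_le_mul_of_nonneg_left h1
    (mul_nonneg (Real.log_natCast_nonneg q) (pow_nonneg hx0.le (m + 1)))
  rw [pow_zero, mul_one]
  linarith

variable (K : Type u) [Field K] [NumberField K]

theorem altSum_placeSum_nonpos (k : ℕ) :
    altSum k (fun j : ℕ => if j = 0 then 0 else placeSum K (1 + j / 2)) ≤ 0 := by
  have hs : HasSum (fun v : HeightOneSpectrum (𝓞 K) => altSum k
      fun j : ℕ => if j = 0 then 0 else placeWeight (1 + j / 2) (absNorm v.asIdeal))
      (altSum k fun j : ℕ => if j = 0 then 0 else placeSum K (1 + j / 2)) := by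
    refine hasSum_sum fun j _ => HasSum.mul_left _ ?_
    dsimp only
    split_ifs with hj
    · exact hasSum_zero
    · have : (0 : ℝ) < j := Nat.cast_pos.2 (by omega)
      exact hasSum_places K (by linarith)
  exact hasSum_le
    (fun v => altSum_placeWeight_nonpos k (NumberField.HeightOneSpectrum.one_lt_absNorm v)) hs
    hasSum_zero

/-- The infinite places enter with `O (n/k)`. -/
theorem altSum_archAt_le {k : ℕ} (hk : 1 ≤ k) :
    altSum k (fun j : ℕ => archAt K (1 + j / 2)) ≤ 4 * finrank ℚ K / ((k : ℝ) + 1) := by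
  have hR : altSum k (fun j : ℕ => realRate (1 + j / 2)) ≤ 4 / ((k : ℝ) + 1) := by
    have h := altSum_neg_digamma_le hk (s := 1 / 4) (by norm_num) (by norm_num)
    rw [show (fun j : ℕ => realRate (1 + j / 2)) = fun j : ℕ => Real.log π / 2 +
        1 / 2 * -(Complex.digamma ((2 * (1 / 4) + j * (1 / 4) : ℝ) : ℂ)).re by
      funext j
      rw [realRate, show (((1 + j / 2 : ℝ) : ℂ) / 2) = ((2 * (1 / 4) + j * (1 / 4) : ℝ) : ℂ) by
        push_cast; ring]
      ring, altSum_add, altSum_const hk, zero_add, altSum_mul_left]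
    exact (mul_le_mul_of_nonneg_left h (by norm_num)).trans (le_of_eq (by ring))
  have hC : altSum k (fun j : ℕ => complexRate (1 + j / 2)) ≤ 4 / ((k : ℝ) + 1) := by
    have h := altSum_neg_digamma_le hk (s := 1 / 2) (by norm_num) le_rfl
    rw [show (fun j : ℕ => complexRate (1 + j / 2)) = fun j : ℕ => Real.log (2 * π) +
        -(Complex.digamma ((2 * (1 / 2) + j * (1 / 2) : ℝ) : ℂ)).re by
      funext j
      rw [complexRate, show ((1 + j / 2 : ℝ) : ℂ) = ((2 * (1 / 2) + j * (1 / 2) : ℝ) : ℂ) by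
        push_cast; ring]
      ring, altSum_add, altSum_const hk, zero_add]
    exact h.trans (le_of_eq (by ring))
  simp only [archAt]
  rw [altSum_add, altSum_mul_left, altSum_mul_left, ← degree_split K]
  have r0 : (0 : ℝ) ≤ nrRealPlaces K := Nat.cast_nonneg _
  have c0 : (0 : ℝ) ≤ nrComplexPlaces K := Nat.cast_nonneg _
  refine (add_le_add (mul_le_mul_of_nonneg_left hR r0) (mul_le_mul_of_nonneg_left hC c0)).trans ?_
  rw [← mul_div_assoc, ← mul_div_assoc, ← add_div]
  exact div_le_div_of_nonneg_right (by linarith) (by positivity)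

/-- **The difference over the zeros.** -/
theorem altSum_re_xiLog_le (hRH : RHFor K) {k : ℕ} (hk : 1 ≤ k) :
    altSum k (fun j : ℕ => (xiLog K ((1 + j / 2 : ℝ) : ℂ)).re) ≤
      8 / ((k : ℝ) + 1) * (xiLog K ((2 : ℝ) : ℂ)).re := by
  refine hasSum_le (f := fun ρ => altSum k fun j : ℕ => reTerm K ((1 + j / 2 : ℝ) : ℂ) ρ)
    (fun ρ => ?_)
    (hasSum_sum fun j _ => (hasSum_reTerm K (xi_ne_zero_right K
      (by rw [Complex.ofReal_re]; exact le_add_of_nonneg_right (by positivity)))).mul_left _)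
    ((hasSum_reTerm K (xi_ne_zero_right K (s := ((2 : ℝ) : ℂ)) (by simp))).mul_left _)
  rcases eq_or_ne (xiMult K ρ) 0 with hm | hm
  · simp [altSum, reTerm, hm]
  have hρ := re_eq_half_of_rh K hRH ((xiMult_ne_zero_iff K).1 hm)
  simp only [reTerm]
  rw [altSum_mul_left, mul_left_comm]
  refine mul_le_mul_of_nonneg_left ?_ (Nat.cast_nonneg _)
  obtain ⟨c, hc⟩ : ∃ c : ℂ, c = 2 * (1 - ρ) := ⟨_, rfl⟩
  have hcre : c.re = 1 := by rw [hc]; simp [hρ]; norm_num
  have hcim : c.im = -(2 * ρ.im) := by rw [hc]; simp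
  have hi : ∀ i : ℕ, (i : ℝ) + 1 ≤ ‖c + i‖ := fun i =>
    le_trans (by simp [hcre, add_comm]) (Complex.re_le_norm _)
  have hne : ∀ i : ℕ, c + i ≠ 0 := fun i => norm_pos_iff.1 (lt_of_lt_of_le (by positivity) (hi i))
  have e : altSum k (fun j : ℕ => ((((1 + j / 2 : ℝ) : ℂ) - ρ)⁻¹).re) =
      (2 * altSum k (fun j : ℕ => (c + j)⁻¹)).re := by
    rw [← altSum_mul_left, show (fun j : ℕ => 2 * (c + j)⁻¹) =
      fun j : ℕ => (((1 + j / 2 : ℝ) : ℂ) - ρ)⁻¹ by
        funext j
        rw [show c + j = 2 * (((1 + j / 2 : ℝ) : ℂ) - ρ) by rw [hc]; push_cast; ring, mul_inv,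
          ← mul_assoc, mul_inv_cancel₀ two_ne_zero, one_mul]]
    simp only [altSum, Complex.re_sum]
    refine Finset.sum_congr rfl fun j _ => ?_
    rw [show ((-1) ^ j * (k.choose j : ℂ)) = (((-1) ^ j * (k.choose j : ℝ) : ℝ) : ℂ) by
      push_cast; rfl, Complex.re_ofReal_mul]
  rw [e, altSum_inv_add k hne]
  refine (Complex.re_le_norm _).trans ?_
  rw [norm_mul, norm_div, Complex.norm_natCast, norm_prod, Complex.norm_two]
  have h := factorial_prod_le (fun i => ‖c + i‖) hi hk
  simp only [Nat.cast_zero, add_zero, Nat.cast_one] at h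
  have hsq : 1 + 4 * ρ.im ^ 2 ≤ ‖c‖ * ‖c + 1‖ := by
    have e0 : ‖c‖ ^ 2 = 1 + 4 * ρ.im ^ 2 := by
      rw [Complex.sq_norm, Complex.normSq_apply, hcre, hcim]; ring
    have e1 : ‖c + 1‖ ^ 2 = 4 + 4 * ρ.im ^ 2 := by
      rw [Complex.sq_norm, Complex.normSq_apply, Complex.add_re, Complex.add_im, hcre, hcim,
        Complex.one_re, Complex.one_im]
      ring
    have hle : ‖c‖ ≤ ‖c + 1‖ := by nlinarith [norm_nonneg c, norm_nonneg (c + 1)]
    nlinarith [mul_le_mul_of_nonneg_left hle (norm_nonneg c)]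
  rw [Complex.inv_re, Complex.normSq_apply]
  simp only [Complex.sub_re, Complex.sub_im, Complex.ofReal_re, Complex.ofReal_im, hρ]
  rw [div_mul_div_comm, mul_div_assoc', div_le_div_iff₀
    (Finset.prod_pos fun i _ => norm_pos_iff.2 (hne i))
      (by nlinarith [sq_nonneg ρ.im] : (0 : ℝ) < _)]
  nlinarith [mul_le_mul_of_nonneg_left hsq
    (by positivity : (0 : ℝ) ≤ (k.factorial : ℝ) * ((k : ℝ) + 1)),
    mul_nonneg (by positivity : (0 : ℝ) ≤ (k.factorial : ℝ) * ((k : ℝ) + 1)) (sq_nonneg ρ.im)]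

/-- The difference of `re ξ'/ξ`, evaluated. -/
theorem ekConst_le_of_altSum (hRH : RHFor K) {k : ℕ} (hk : 1 ≤ k) :
    ekConst K ≤ 8 / ((k : ℝ) + 1) * (logGenus K + 2 + archBound * finrank ℚ K) +
      4 * finrank ℚ K / ((k : ℝ) + 1) + 2 * (harmonic k : ℝ) := by
  have hF : (fun j : ℕ => (xiLog K ((1 + j / 2 : ℝ) : ℂ)).re) = fun j : ℕ =>
      (((logGenus K + ((1 + (j : ℝ) / 2)⁻¹ + 2 * ((j : ℝ))⁻¹)) - archAt K (1 + j / 2)) -
        (if j = 0 then 0 else placeSum K (1 + j / 2))) + (if j = 0 then ekConst K else 0) := by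
    funext j
    rcases Nat.eq_zero_or_pos j with rfl | hj
    · have := re_xiLog_one_eq K
      simp at this ⊢
      linarith
    · have hj' : (0 : ℝ) < j := Nat.cast_pos.2 hj
      rw [re_xiLog_right K (show (1 : ℝ) < 1 + j / 2 by linarith), if_neg hj.ne', if_neg hj.ne',
        add_sub_cancel_left, one_div, one_div, inv_div, div_eq_mul_inv (2 : ℝ)]
      ring
  have h := (altSum_re_xiLog_le K hRH hk).trans
    (mul_le_mul_of_nonneg_left (re_xiLog_two_le K) (by positivity))
  have e1 : altSum k (fun j : ℕ => if j = 0 then ekConst K else 0) = ekConst K := by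
    rw [altSum_ite, altSum_const hk]; ring
  have e2 : 0 ≤ altSum k (fun j : ℕ => (1 + (j : ℝ) / 2)⁻¹) := by
    rw [show (fun j : ℕ => (1 + (j : ℝ) / 2)⁻¹) = fun j : ℕ => 2 * ((2 : ℝ) + j)⁻¹ by
      funext j; field_simp, altSum_mul_left, altSum_inv_add k fun i => by positivity]
    positivity
  rw [hF, altSum_add, altSum_sub, altSum_sub, altSum_add, altSum_add, altSum_const hk, zero_add,
    altSum_mul_left, altSum_inv_nat, e1] at h
  linarith [altSum_placeSum_nonpos K k, altSum_archAt_le K hk]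

/-- **Ihara's bound on the Riemann hypothesis.** -/
theorem exists_ekConst_le_log : ∃ C : ℝ, ∀ (K : Type u) [Field K] [NumberField K], RHFor K →
    ekConst K ≤ 2 * Real.log (logGenus K + 1) + C := by
  obtain ⟨A, hA, hdeg⟩ := exists_degree_le.{u}
  refine ⟨8 + 8 * archBound * A + 4 * A + 2 + 2 * Real.log 3, fun K _ _ hRH => ?_⟩
  have hab : 0 ≤ archBound := add_nonneg (abs_nonneg _) (abs_nonneg _)
  have hg := logGenus_nonneg K
  obtain ⟨k, hk⟩ : ∃ k, k = ⌈logGenus K⌉₊ + 1 := ⟨_, rfl⟩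
  have hk1 : logGenus K + 1 ≤ k := by rw [hk]; push_cast; linarith [Nat.le_ceil (logGenus K)]
  have hk2 : (k : ℝ) ≤ 3 * (logGenus K + 1) := by
    rw [hk]; push_cast; linarith [Nat.ceil_lt_add_one hg]
  have h := ekConst_le_of_altSum K hRH (k := k) (by omega)
  have hpos : (0 : ℝ) < (k : ℝ) + 1 := by positivity
  have hn : (finrank ℚ K : ℝ) ≤ A * ((k : ℝ) + 1) :=
    (hdeg K).trans (mul_le_mul_of_nonneg_left (by linarith) hA.le)
  have t1 : 8 / ((k : ℝ) + 1) * (logGenus K + 2 + archBound * finrank ℚ K) ≤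
      8 + 8 * archBound * A := by
    rw [div_mul_eq_mul_div, div_le_iff₀ hpos]
    linarith [mul_le_mul_of_nonneg_left hn (by linarith : (0 : ℝ) ≤ 8 * archBound)]
  have t2 : 4 * (finrank ℚ K : ℝ) / ((k : ℝ) + 1) ≤ 4 * A := by
    rw [div_le_iff₀ hpos]; linarith
  have t3 : Real.log (k : ℝ) ≤ Real.log 3 + Real.log (logGenus K + 1) := by
    rw [← Real.log_mul (by norm_num) (by positivity)]
    exact Real.log_le_log (by linarith) hk2
  linarith [harmonic_le_one_add_log k]

end FA.EulerKroneckerFamilies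

end
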