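import Fermat.Agent.GeneralBrauerSiegelGRH.Lower

/-!
# The constant of Euler and Kronecker against the places of small norm

By Stark's sum `γ_K + P σ = (f 1 - f σ) + 1/σ + 1/(σ-1) - 1` up to the archimedean terms, where
`f = re ξ'/ξ` and `P σ = ∑ log N v / (N v ^ σ - 1)`. On the Riemann hypothesis
`|f σ - f 1| ≤ 6 (σ - 1) f 2` for `1 ≤ σ`, so `γ_K` is `-∑_{q ≤ Q} N_q log q / (q - 1)` up to
`ε g + C`.
-/

set_option autoImplicit false
set_option linter.style.haveILetI false

noncomputable section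

universe u

open NumberField InfinitePlace Module Filter Topology Set IsDedekindDomain Ideal
open FA.HeckeBS FA.TsfasmanVladut FA.GeneralBrauerSiegelGRH
open FA.DedekindZeroCount FA.DedekindHadamard
open scoped Real Classical

namespace FA.EulerKroneckerFamilies

variable (K : Type u) [Field K] [NumberField K]

/-- `r₁ rR σ + r₂ rC σ`. -/
def archAt (σ : ℝ) : ℝ := nrRealPlaces K * realRate σ + nrComplexPlaces K * complexRate σ

/-- `∑ log N v / (N v ^ σ - 1)`. -/
def placeSum (σ : ℝ) : ℝ :=
  -(deriv (dedekindZeta K) (σ : ℂ) / dedekindZeta K (σ : ℂ)).re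

theorem re_xiLog_right {σ : ℝ} (hσ : 1 < σ) : (xiLog K (σ : ℂ)).re =
    logGenus K + 1 / σ + 1 / (σ - 1) - archAt K σ - placeSum K σ := by
  have hs : 1 < (σ : ℂ).re := by simpa using hσ
  rw [← (stark_identity K hs).unique (hasSum_reTerm K (xi_ne_zero_right K hs.le))]
  have e3 : (archTerm K (σ : ℂ)).re = -archAt K σ := by
    rw [archTerm, archAt, Complex.add_re, ← Complex.ofReal_natCast, Complex.re_ofReal_mul,
      ← Complex.ofReal_natCast, Complex.re_ofReal_mul, Complex.div_ofNat_re, Complex.sub_re,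
      Complex.sub_re, Complex.ofReal_re, Complex.ofReal_re, realRate, complexRate]
    ring
  have hD : logGenus K = discLog K / 2 := rfl
  rw [e3, hD, placeSum, ← Complex.ofReal_one, ← Complex.ofReal_sub, ← Complex.ofReal_inv,
    ← Complex.ofReal_inv, Complex.ofReal_re, Complex.ofReal_re, one_div, one_div]
  ring

theorem re_xiLog_one_eq :
    (xiLog K 1).re = 1 + logGenus K + ekConst K - archAt K 1 := by
  have h := (hasSum_re_inv K).unique (hasSum_re_inv_closed K)
  have hD : logGenus K = discLog K / 2 := rfl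
  have hπ : Real.log (4 * π) = 2 * Real.log 2 + Real.log π := by
    rw [show (4 : ℝ) * π = 2 ^ 2 * π by norm_num,
      Real.log_mul (by norm_num) Real.pi_ne_zero, Real.log_pow]
    push_cast
    ring
  rw [h, archAt, realRate_one, complexRate_one, hD, hπ,
    Real.log_mul two_ne_zero (Real.sqrt_ne_zero'.2 Real.pi_pos), Real.log_sqrt Real.pi_pos.le]
  ring

/-- **On the Riemann hypothesis `f` moves little.** -/
theorem abs_re_xiLog_sub_le (hRH : RHFor K) {σ : ℝ} (h1 : 1 ≤ σ) :
    |(xiLog K (σ : ℂ)).re - (xiLog K 1).re| ≤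
      6 * (σ - 1) * (xiLog K ((2 : ℝ) : ℂ)).re := by
  have hx := hasSum_reTerm K (xi_ne_zero_right K (s := (σ : ℂ)) (by simpa using h1))
  have hy := hasSum_reTerm K (xi_ne_zero_right K (s := 1) le_rfl)
  have hz := (hasSum_reTerm K (xi_ne_zero_right K (s := ((2 : ℝ) : ℂ)) (by simp))).mul_left
    (6 * (σ - 1))
  have key : ∀ ρ, |reTerm K (σ : ℂ) ρ - reTerm K 1 ρ| ≤
      6 * (σ - 1) * reTerm K ((2 : ℝ) : ℂ) ρ := fun ρ => by
    rcases eq_or_ne (xiMult K ρ) 0 with hm | hm
    · simp [reTerm, hm]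
    have hρ := re_eq_half_of_rh K hRH ((xiMult_ne_zero_iff K).1 hm)
    simp only [reTerm]
    rw [← mul_sub, abs_mul, Nat.abs_cast, mul_left_comm]
    refine mul_le_mul_of_nonneg_left ?_ (Nat.cast_nonneg _)
    rw [Complex.inv_re, Complex.inv_re, Complex.inv_re, Complex.normSq_apply,
      Complex.normSq_apply, Complex.normSq_apply]
    simp only [Complex.sub_re, Complex.sub_im, Complex.ofReal_re, Complex.ofReal_im,
      Complex.one_re, Complex.one_im, hρ]
    obtain ⟨c, hc⟩ : ∃ c, c = (0 - ρ.im) * (0 - ρ.im) := ⟨_, rfl⟩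
    have hc0 : 0 ≤ c := hc ▸ mul_self_nonneg _
    obtain ⟨a, ha⟩ : ∃ a, a = σ - 1 / 2 := ⟨_, rfl⟩
    have ha1 : 1 / 2 ≤ a := by linarith
    rw [← hc, ← ha, show (1 : ℝ) - 1 / 2 = 1 / 2 by norm_num,
      show (2 : ℝ) - 1 / 2 = 3 / 2 by norm_num]
    have hA : 0 < a * a + c := by nlinarith
    have hB : 0 < 1 / 2 * (1 / 2) + c := by linarith
    calc |a / (a * a + c) - 1 / 2 / (1 / 2 * (1 / 2) + c)|
        = (σ - 1) * (|c - a / 2| / ((a * a + c) * (1 / 2 * (1 / 2) + c))) := by
          rw [div_sub_div _ _ hA.ne' hB.ne', abs_div, abs_of_pos (mul_pos hA hB),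
            show a * (1 / 2 * (1 / 2) + c) - (a * a + c) * (1 / 2) = (a - 1 / 2) * (c - a / 2) by
              ring, abs_mul, abs_of_nonneg (by linarith : 0 ≤ a - 1 / 2), mul_div_assoc,
            show a - 1 / 2 = σ - 1 by linarith]
      _ ≤ (σ - 1) * (1 / (1 / 2 * (1 / 2) + c)) := by
          refine mul_le_mul_of_nonneg_left ?_ (by linarith)
          rw [div_le_div_iff₀ (mul_pos hA hB) hB, one_mul]
          refine mul_le_mul_of_nonneg_right ?_ hB.le
          rw [abs_le]
          constructor <;> nlinarith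
      _ ≤ 6 * (σ - 1) * (3 / 2 / (3 / 2 * (3 / 2) + c)) := by
          rw [mul_comm (6 : ℝ), mul_assoc]
          refine mul_le_mul_of_nonneg_left ?_ (by linarith)
          rw [show 6 * (3 / 2 / (3 / 2 * (3 / 2) + c)) = 9 / (3 / 2 * (3 / 2) + c) by ring,
            div_le_div_iff₀ hB (by linarith)]
          linarith
  rw [abs_le]
  have hd := hx.sub hy
  exact ⟨hasSum_le (fun ρ => (abs_le.1 (key ρ)).1) hz.neg hd,
    hasSum_le (fun ρ => (abs_le.1 (key ρ)).2) hd hz⟩

theorem abs_ekConst_add_le (hRH : RHFor K) {σ : ℝ} (hσ : 1 < σ) :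
    |ekConst K + placeSum K σ - (1 / σ + 1 / (σ - 1) - 1) - (archAt K 1 - archAt K σ)| ≤
      6 * (σ - 1) * (logGenus K + 2 + archBound * finrank ℚ K) := by
  have h := (abs_re_xiLog_sub_le K hRH hσ.le).trans
    (mul_le_mul_of_nonneg_left (re_xiLog_two_le K) (by linarith))
  rw [re_xiLog_right K hσ, re_xiLog_one_eq] at h
  rw [abs_le] at h ⊢
  constructor <;> linarith

/-- **The places of norm `> Q` carry little.** -/
theorem placeSum_le {σ : ℝ} (hσ : 1 < σ) {Q : ℕ} (hQ : 1 ≤ Q) :
    placeSum K σ ≤ (∑ q ∈ Finset.Icc 2 Q, (placeCount K q : ℝ) * placeWeight 1 q) +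
      4 / (σ - 1) * (Q : ℝ) ^ (-((σ - 1) / 4)) * (finrank ℚ K * eulerConst ((1 + σ) / 2)) := by
  have hsum := hasSum_places K hσ
  refine le_of_le_of_eq ?_ rfl
  rw [placeSum, ← hsum.tsum_eq]
  refine hsum.summable.tsum_le_of_sum_le fun T => ?_
  have hq : ∀ v : HeightOneSpectrum (𝓞 K), 2 ≤ absNorm v.asIdeal := fun v =>
    NumberField.HeightOneSpectrum.one_lt_absNorm v
  rw [← Finset.sum_filter_add_sum_filter_not T (fun v => absNorm v.asIdeal ≤ Q)]
  refine add_le_add ?_ ?_
  · calc ∑ v ∈ T.filter (fun v => absNorm v.asIdeal ≤ Q), placeWeight σ (absNorm v.asIdeal)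
        ≤ ∑ v ∈ T.filter (fun v => absNorm v.asIdeal ≤ Q),
            placeWeight 1 (absNorm v.asIdeal) := by
          refine Finset.sum_le_sum fun v _ => ?_
          have h2 : (2 : ℝ) ≤ ((absNorm v.asIdeal : ℕ) : ℝ) := by exact_mod_cast hq v
          rw [placeWeight, placeWeight]
          refine div_le_div_of_nonneg_left (Real.log_natCast_nonneg _)
            (by rw [Real.rpow_one]; linarith) ?_
          exact sub_le_sub_right (Real.rpow_le_rpow_of_exponent_le (by linarith) hσ.le) 1
      _ ≤ ∑ v ∈ (Finset.Icc 2 Q).biUnion (fun q => (finite_places_norm K q).toFinset),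
          placeWeight 1 (absNorm v.asIdeal) :=
          Finset.sum_le_sum_of_subset_of_nonneg (fun v hv => by
            simp only [Finset.mem_biUnion, Finset.mem_Icc, Set.Finite.mem_toFinset]
            exact ⟨_, ⟨hq v, (Finset.mem_filter.1 hv).2⟩, rfl⟩)
            fun v _ _ => placeWeight_nonneg zero_le_one _
      _ = _ := by
        rw [Finset.sum_biUnion]
        · refine Finset.sum_congr rfl fun q _ => ?_
          rw [placeCount, Set.ncard_eq_toFinset_card _ (finite_places_norm K q),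
            Finset.sum_eq_card_nsmul (b := placeWeight 1 q) fun v hv => ?_, nsmul_eq_mul]
          rw [(Set.Finite.mem_toFinset _).1 hv]
        · intro a _ b _ hab
          refine Finset.disjoint_left.2 fun v ha hb => hab ?_
          have h1 : absNorm v.asIdeal = a := by simpa using ha
          have h2 : absNorm v.asIdeal = b := by simpa using hb
          exact h1.symm.trans h2
  · obtain ⟨δ, hδ⟩ : ∃ δ, δ = (σ - 1) / 4 := ⟨_, rfl⟩
    have hδ0 : 0 < δ := by linarith
    have hQ0 : (0 : ℝ) < Q := Nat.cast_pos.2 hQ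
    calc ∑ v ∈ T.filter (fun v => ¬absNorm v.asIdeal ≤ Q), placeWeight σ (absNorm v.asIdeal)
        ≤ ∑ v ∈ T.filter (fun v => ¬absNorm v.asIdeal ≤ Q), 4 / (σ - 1) * (Q : ℝ) ^ (-δ) *
          (2 * ((absNorm v.asIdeal : ℕ) : ℝ) ^ (-((1 + σ) / 2))) := by
          refine Finset.sum_le_sum fun v hv => ?_
          obtain ⟨q, hqd⟩ : ∃ q : ℝ, q = ((absNorm v.asIdeal : ℕ) : ℝ) := ⟨_, rfl⟩
          have h2 : (2 : ℝ) ≤ q := by rw [hqd]; exact_mod_cast hq v
          have hv' : (Q : ℝ) ≤ q :=
            hqd ▸ Nat.cast_le.2 (not_le.1 (Finset.mem_filter.1 hv).2).le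
          have hp : (0 : ℝ) < q ^ σ := Real.rpow_pos_of_pos (by linarith) σ
          have hq2 : 2 ≤ q ^ σ := h2.trans (Real.self_le_rpow_of_one_le (by linarith) hσ.le)
          rw [placeWeight, ← hqd]
          calc Real.log q / (q ^ σ - 1) ≤ q ^ δ / δ / (q ^ σ / 2) :=
                div_le_div₀ (div_nonneg (Real.rpow_nonneg (by linarith) _) hδ0.le)
                  (Real.log_le_rpow_div (by linarith) hδ0) (half_pos hp) (by linarith)
            _ = 4 / (σ - 1) * (2 * (q ^ δ / q ^ σ)) := by rw [hδ]; field_simp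
            _ ≤ _ := by
                rw [← Real.rpow_sub (by linarith), mul_assoc (4 / (σ - 1)),
                  mul_left_comm ((Q : ℝ) ^ (-δ)) 2]
                refine mul_le_mul_of_nonneg_left (mul_le_mul_of_nonneg_left ?_ zero_le_two)
                  (div_nonneg (by norm_num) (by linarith))
                rw [show δ - σ = -δ + -((1 + σ) / 2) by linarith, Real.rpow_add (by linarith)]
                exact mul_le_mul_of_nonneg_right
                  (Real.rpow_le_rpow_of_nonpos hQ0 hv' (by linarith))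
                  (Real.rpow_nonneg (by linarith) _)
      _ ≤ _ := by
          rw [← Finset.mul_sum, ← Finset.mul_sum, hδ]
          exact mul_le_mul_of_nonneg_left (sum_prime_rpow_le _ (by linarith))
            (mul_nonneg (div_nonneg zero_le_four (by linarith)) (Real.rpow_nonneg hQ0.le _))

end FA.EulerKroneckerFamilies

end
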