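import Fermat.Agent.EulerKroneckerFamilies.Uniform
import Fermat.Agent.TsfasmanVladut.Splitting

/-!
# The constant of Euler and Kronecker along a family

With `g = log √|d| → ∞` and the ratios converging: on the Riemann hypothesis
`γ_K / g → -∑ φ q log q / (q - 1)` and `∑ m re (1/ρ) / g` tends to the deficiency; with no
hypothesis `γ_K / g` is at least `φR rR + φC rC - 1` in the limit.
-/

set_option autoImplicit false
set_option linter.style.haveILetI false

noncomputable section

universe u

open NumberField InfinitePlace Module Filter Topology Set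
open FA.TsfasmanVladut FA.DedekindZeroCount FA.DedekindHadamard
open Real (eulerMascheroniConstant)
open scoped Real Classical

namespace FA.EulerKroneckerFamilies

variable {F : ℕ → Type u} [∀ i, Field (F i)] [∀ i, NumberField (F i)]
variable {φ : ℕ → ℝ} {φR φC : ℝ}

/-- From above, along the sequence. -/
theorem eventually_ekConst_le (h : RatiosTend F φ φR φC)
    (hg : Tendsto (fun i => logGenus (F i)) atTop atTop) (hRH : ∀ i, RHFor (F i)) {ε : ℝ}
    (hε : 0 < ε) :
    ∀ᶠ i in atTop, ekConst (F i) ≤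
      (-(∑' q, φ q * placeWeight 1 q) + ε) * logGenus (F i) := by
  obtain ⟨N, hN⟩ := ((h.basic_inequality hg).1.hasSum.tendsto_sum_nat.eventually
    (eventually_gt_nhds (sub_lt_self _ (show 0 < ε / 3 by linarith)))).exists
  obtain ⟨C, -, hC⟩ := exists_ekConst_le.{u} (Finset.range N) (show 0 < ε / 3 by linarith)
  have hlim := tendsto_finsetSum (Finset.range N) fun q _ =>
    (h.finite q).mul_const (placeWeight 1 q)
  filter_upwards [hlim.eventually (eventually_gt_nhds hN), hg.eventually_ge_atTop (3 * C / ε),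
    hg.eventually_gt_atTop 0] with i hi hi' hg0
  simp only [div_mul_eq_mul_div, ← Finset.sum_div] at hi
  rw [lt_div_iff₀ hg0] at hi
  rw [div_le_iff₀ hε] at hi'
  linarith [hC (F i) (hRH i)]

/-- From below, along the sequence. -/
theorem eventually_ekConst_ge (h : RatiosTend F φ φR φC)
    (hg : Tendsto (fun i => logGenus (F i)) atTop atTop) (hRH : ∀ i, RHFor (F i)) {ε : ℝ}
    (hε : 0 < ε) :
    ∀ᶠ i in atTop, (-(∑' q, φ q * placeWeight 1 q) - ε) * logGenus (F i) ≤ ekConst (F i) := by
  obtain ⟨Q, C, -, hC⟩ := exists_ekConst_ge.{u} (show 0 < ε / 3 by linarith)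
  have hlim := tendsto_finsetSum (Finset.Icc 2 Q) fun q _ =>
    (h.finite q).mul_const (placeWeight 1 q)
  have hle : ∑ q ∈ Finset.Icc 2 Q, φ q * placeWeight 1 q <
      ∑' q, φ q * placeWeight 1 q + ε / 3 := by
    have := (h.basic_inequality hg).1.sum_le_tsum (Finset.Icc 2 Q)
      fun q _ => mul_nonneg (h.nonneg q) (placeWeight_nonneg zero_le_one q)
    linarith
  filter_upwards [hlim.eventually (eventually_lt_nhds hle), hg.eventually_ge_atTop (3 * C / ε),
    hg.eventually_gt_atTop 0] with i hi hi' hg0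
  simp only [div_mul_eq_mul_div, ← Finset.sum_div] at hi
  rw [div_lt_iff₀ hg0] at hi
  rw [div_le_iff₀ hε] at hi'
  linarith [hC (F i) (hRH i)]

/-- **`γ_K / g` converges.** -/
theorem tendsto_ekConst_div (h : RatiosTend F φ φR φC)
    (hg : Tendsto (fun i => logGenus (F i)) atTop atTop) (hRH : ∀ i, RHFor (F i)) :
    Tendsto (fun i => ekConst (F i) / logGenus (F i)) atTop
      (𝓝 (-∑' q, φ q * placeWeight 1 q)) := by
  refine Metric.tendsto_nhds.2 fun ε hε => ?_
  filter_upwards [eventually_ekConst_le h hg hRH (half_pos hε),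
    eventually_ekConst_ge h hg hRH (half_pos hε), hg.eventually_gt_atTop 0] with i h1 h2 hg0
  rw [← le_div_iff₀ hg0] at h2
  rw [← div_le_iff₀ hg0] at h1
  rw [Real.dist_eq, abs_lt]
  constructor <;> linarith

theorem tsum_re_inv_eq (K : Type u) [Field K] [NumberField K] :
    ∑' ρ : ℂ, (xiMult K ρ : ℝ) * (ρ⁻¹).re =
      1 + logGenus K + ekConst K -
        (nrRealPlaces K * realRate 1 + nrComplexPlaces K * complexRate 1) := by
  rw [(hasSum_re_inv_closed K).tsum_eq, show logGenus K = discLog K / 2 from rfl,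
    show eulerMascheroniConstant + Real.log (4 * π) = 2 * realRate 1 by
      rw [two_mul_realRate_one]; ring,
    complexRate_one]
  ring

/-- **`∑ m re (1/ρ) / g` tends to the deficiency.** -/
theorem tendsto_zeroSum_div (h : RatiosTend F φ φR φC)
    (hg : Tendsto (fun i => logGenus (F i)) atTop atTop) (hRH : ∀ i, RHFor (F i)) :
    Tendsto (fun i => (∑' ρ : ℂ, (xiMult (F i) ρ : ℝ) * (ρ⁻¹).re) / logGenus (F i)) atTop
      (𝓝 (1 - (∑' q, φ q * placeWeight 1 q) - (φR * realRate 1 + φC * complexRate 1))) := by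
  have e : ∀ᶠ i in atTop, (logGenus (F i))⁻¹ + 1 + ekConst (F i) / logGenus (F i) -
      ((nrRealPlaces (F i) : ℝ) / logGenus (F i) * realRate 1 +
        (nrComplexPlaces (F i) : ℝ) / logGenus (F i) * complexRate 1) =
      (∑' ρ : ℂ, (xiMult (F i) ρ : ℝ) * (ρ⁻¹).re) / logGenus (F i) := by
    filter_upwards [hg.eventually_gt_atTop 0] with i hg0
    rw [tsum_re_inv_eq]
    field_simp
  refine Tendsto.congr' e ?_
  have := ((((tendsto_inv_atTop_zero.comp hg).add_const 1).add (tendsto_ekConst_div h hg hRH))).sub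
    ((h.real.mul_const (realRate 1)).add (h.complex.mul_const (complexRate 1)))
  rwa [zero_add, ← sub_eq_add_neg] at this

/-- **With no hypothesis: the lower bound of Ihara along a family.** -/
theorem eventually_ekConst_gt (h : RatiosTend F φ φR φC)
    (hg : Tendsto (fun i => logGenus (F i)) atTop atTop) {ε : ℝ} (hε : 0 < ε) :
    ∀ᶠ i in atTop, (φR * realRate 1 + φC * complexRate 1 - 1 - ε) * logGenus (F i) <
      ekConst (F i) := by
  have hlim : Tendsto (fun i => (nrRealPlaces (F i) : ℝ) / logGenus (F i) * realRate 1 +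
      (nrComplexPlaces (F i) : ℝ) / logGenus (F i) * complexRate 1) atTop
      (𝓝 (φR * realRate 1 + φC * complexRate 1)) :=
    (h.real.mul_const _).add (h.complex.mul_const _)
  filter_upwards [hlim.eventually (eventually_gt_nhds (sub_lt_self _ (half_pos hε))),
    hg.eventually_ge_atTop (2 / ε), hg.eventually_gt_atTop 0] with i hi hi' hg0
  rw [div_mul_eq_mul_div, div_mul_eq_mul_div, ← add_div, lt_div_iff₀ hg0] at hi
  rw [div_le_iff₀ hε] at hi'
  have hk : (nrRealPlaces (F i) : ℝ) * realRate 1 + nrComplexPlaces (F i) * complexRate 1 - 1 -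
      logGenus (F i) < ekConst (F i) := by
    have h0 := ekConst_gt (F i)
    rw [show eulerMascheroniConstant + Real.log (4 * π) = 2 * realRate 1 by
      rw [two_mul_realRate_one]; ring] at h0
    rw [complexRate_one, show logGenus (F i) = discLog (F i) / 2 from rfl]
    linarith
  linarith

/-- **With `n / g → 0`: `γ_K / g → 0`.** -/
theorem tendsto_ekConst_zero {ι : Type*} {l : Filter ι} (G : ι → Type u) [∀ i, Field (G i)]
    [∀ i, NumberField (G i)] (hg : Tendsto (fun i => logGenus (G i)) l atTop)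
    (hn : Tendsto (fun i => (finrank ℚ (G i) : ℝ) / logGenus (G i)) l (𝓝 0))
    (hRH : ∀ i, RHFor (G i)) :
    Tendsto (fun i => ekConst (G i) / logGenus (G i)) l (𝓝 0) := by
  refine Metric.tendsto_nhds.2 fun ε hε => ?_
  obtain ⟨C₁, hC₁0, hC₁⟩ := exists_ekConst_le.{u} ∅ (show 0 < ε / 4 by linarith)
  obtain ⟨Q, C₂, hC₂0, hC₂⟩ := exists_ekConst_ge.{u} (show 0 < ε / 4 by linarith)
  obtain ⟨W, hW⟩ : ∃ W, W = ∑ q ∈ Finset.Icc 2 Q, placeWeight 1 q := ⟨_, rfl⟩
  have hlim : Tendsto (fun i => (finrank ℚ (G i) : ℝ) / logGenus (G i) * W) l (𝓝 0) := by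
    simpa using hn.mul_const W
  filter_upwards [hlim.eventually (eventually_lt_nhds (show (0 : ℝ) < ε / 4 by linarith)),
    hg.eventually_ge_atTop (4 * (C₁ + C₂) / ε), hg.eventually_gt_atTop 0] with i h1 h3 hg0
  rw [div_le_iff₀ hε] at h3
  rw [div_mul_eq_mul_div, div_lt_iff₀ hg0] at h1
  have a := hC₁ (G i) (hRH i)
  have b := hC₂ (G i) (hRH i)
  have c : ∑ q ∈ Finset.Icc 2 Q, (placeCount (G i) q : ℝ) * placeWeight 1 q ≤
      finrank ℚ (G i) * W := by
    rw [hW, Finset.mul_sum]
    exact Finset.sum_le_sum fun q _ => mul_le_mul_of_nonneg_right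
      (Nat.cast_le.2 (placeCount_le (G i) q)) (placeWeight_nonneg zero_le_one q)
  rw [Finset.sum_empty] at a
  rw [Real.dist_eq, sub_zero, abs_lt, lt_div_iff₀ hg0, div_lt_iff₀ hg0]
  constructor <;> linarith [mul_pos hε hg0]

end FA.EulerKroneckerFamilies

end
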