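import Fermat.Agent.EulerKroneckerFamilies.Bounds

/-!
# The constant of Euler and Kronecker, uniformly in the field

On the Riemann hypothesis `γ_K` is `-∑_{q ≤ Q} N_q log q / (q - 1)` up to `ε g + C`: from above for
every finite set of norms, from below for some `Q`.
-/

set_option autoImplicit false
set_option linter.style.haveILetI false

noncomputable section

universe u

open NumberField InfinitePlace Module Filter Topology Set
open FA.HeckeBS FA.TsfasmanVladut FA.GeneralBrauerSiegelGRH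
open FA.DedekindHadamard
open scoped Real Classical

namespace FA.EulerKroneckerFamilies

theorem exists_near (S : Finset ℕ) {η : ℝ} (hη : 0 < η) :
    ∃ σ : ℝ, 1 < σ ∧ σ - 1 ≤ η ∧ ∑ q ∈ S, |placeWeight σ q - placeWeight 1 q| ≤ η ∧
      |realRate σ - realRate 1| ≤ η ∧ |complexRate σ - complexRate 1| ≤ η := by
  have key : ∀ {f : ℝ → ℝ}, ContinuousAt f 1 → f 1 = 0 → ∀ᶠ σ in 𝓝[>] 1, f σ ≤ η :=
    fun {f} hc h0 => (hc.tendsto.mono_left nhdsWithin_le_nhds).eventually
      (eventually_le_nhds (by rwa [h0]))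
  have hid := key (f := fun σ => σ - 1) (continuousAt_id.sub continuousAt_const) (sub_self 1)
  have hS := key (f := fun σ => ∑ q ∈ S, |placeWeight σ q - placeWeight 1 q|)
    (tendsto_finsetSum S fun q _ => ((continuousAt_placeWeight q).sub continuousAt_const).abs)
    (by simp)
  have hR := key (f := fun σ => |realRate σ - realRate 1|)
    (continuousAt_rates.1.sub continuousAt_const).abs (by simp)
  have hC := key (f := fun σ => |complexRate σ - complexRate 1|)
    (continuousAt_rates.2.sub continuousAt_const).abs (by simp)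
  exact (eventually_mem_nhdsWithin.and (hid.and (hS.and (hR.and hC)))).exists

variable (K : Type u) [Field K] [NumberField K]

theorem abs_archAt_sub_le {σ η : ℝ} (hR : |realRate σ - realRate 1| ≤ η)
    (hC : |complexRate σ - complexRate 1| ≤ η) :
    |archAt K 1 - archAt K σ| ≤ η * finrank ℚ K := by
  have r0 : (0 : ℝ) ≤ nrRealPlaces K := Nat.cast_nonneg _
  have c0 : (0 : ℝ) ≤ nrComplexPlaces K := Nat.cast_nonneg _
  rw [abs_le] at hR hC ⊢
  rw [archAt, archAt, ← degree_split K]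
  constructor <;>
    linarith [mul_le_mul_of_nonneg_left hR.1 r0, mul_le_mul_of_nonneg_left hR.2 r0,
      mul_le_mul_of_nonneg_left hC.1 c0, mul_le_mul_of_nonneg_left hC.2 c0]

theorem abs_sum_weight_sub_le {σ η : ℝ} {S : Finset ℕ}
    (hS : ∑ q ∈ S, |placeWeight σ q - placeWeight 1 q| ≤ η) :
    |(∑ q ∈ S, (placeCount K q : ℝ) * placeWeight σ q) -
        ∑ q ∈ S, (placeCount K q : ℝ) * placeWeight 1 q| ≤ η * finrank ℚ K := by
  rw [← Finset.sum_sub_distrib]
  refine (Finset.abs_sum_le_sum_abs _ _).trans ((Finset.sum_le_sum fun q _ => ?_).trans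
    ((Finset.sum_mul ..).symm.trans_le (mul_le_mul_of_nonneg_right hS (Nat.cast_nonneg _))))
  rw [← mul_sub, abs_mul, Nat.abs_cast, mul_comm]
  exact mul_le_mul_of_nonneg_left (Nat.cast_le.2 (placeCount_le K q)) (abs_nonneg _)

theorem error_le {σ η ε A n g : ℝ} (hσ : σ - 1 ≤ η) (hη : 0 ≤ η) (hn0 : 0 ≤ n)
    (hn : n ≤ A * (g + 1)) (hg : 0 ≤ g) (hA : 0 ≤ A)
    (hε : η * ((2 + 6 * archBound) * A + 6) = ε) :
    2 * (η * n) + 6 * (σ - 1) * (g + 2 + archBound * n) ≤ ε * g + 2 * ε := by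
  have hab : 0 ≤ archBound := add_nonneg (abs_nonneg _) (abs_nonneg _)
  have h1 : 6 * (σ - 1) * (g + 2 + archBound * n) ≤ 6 * η * (g + 2 + archBound * n) :=
    mul_le_mul_of_nonneg_right (by linarith) (by positivity)
  have h2 : η * (2 + 6 * archBound) * n ≤ η * (2 + 6 * archBound) * (A * (g + 2)) :=
    mul_le_mul_of_nonneg_left (hn.trans (mul_le_mul_of_nonneg_left (by linarith) hA))
      (by positivity)
  rw [← hε]
  linarith

/-- **On the Riemann hypothesis: `γ_K` from above.** -/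
theorem exists_ekConst_le (S : Finset ℕ) {ε : ℝ} (hε : 0 < ε) : ∃ C : ℝ, 0 ≤ C ∧
    ∀ (K : Type u) [Field K] [NumberField K], RHFor K →
      ekConst K ≤ -(∑ q ∈ S, (placeCount K q : ℝ) * placeWeight 1 q) + ε * logGenus K + C := by
  obtain ⟨A, hA, hdeg⟩ := exists_degree_le.{u}
  have hab : 0 ≤ archBound := add_nonneg (abs_nonneg _) (abs_nonneg _)
  obtain ⟨η, hη⟩ : ∃ η, η = ε / ((2 + 6 * archBound) * A + 6) := ⟨_, rfl⟩
  have hη0 : 0 < η := hη ▸ by positivity
  obtain ⟨σ, hσ, hση, hS, hR, hC⟩ := exists_near S hη0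
  refine ⟨|1 / σ + 1 / (σ - 1) - 1| + 2 * ε, by positivity, fun K _ _ hRH => ?_⟩
  have h1 := (abs_le.1 (abs_ekConst_add_le K hRH hσ)).2
  have h2 : _ ≤ placeSum K σ := sum_places_le K hσ S
  have h3 := (abs_le.1 (abs_sum_weight_sub_le K hS)).1
  have h4 := (abs_le.1 (abs_archAt_sub_le K hR hC)).2
  have h5 := error_le hση hη0.le (Nat.cast_nonneg _) (hdeg K) (logGenus_nonneg K) hA.le
    (ε := ε) (by rw [hη]; field_simp)
  linarith [le_abs_self (1 / σ + 1 / (σ - 1) - 1)]

/-- **On the Riemann hypothesis: `γ_K` from below.** -/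
theorem exists_ekConst_ge {ε : ℝ} (hε : 0 < ε) : ∃ (Q : ℕ) (C : ℝ), 0 ≤ C ∧
    ∀ (K : Type u) [Field K] [NumberField K], RHFor K →
      -(∑ q ∈ Finset.Icc 2 Q, (placeCount K q : ℝ) * placeWeight 1 q) - ε * logGenus K - C ≤
        ekConst K := by
  obtain ⟨A, hA, hdeg⟩ := exists_degree_le.{u}
  have hab : 0 ≤ archBound := add_nonneg (abs_nonneg _) (abs_nonneg _)
  obtain ⟨η, hη⟩ : ∃ η, η = ε / ((2 + 6 * archBound) * A + 6) := ⟨_, rfl⟩
  have hη0 : 0 < η := hη ▸ by positivity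
  obtain ⟨σ, hσ, hση, -, hR, hC⟩ := exists_near ∅ hη0
  have hlim : Tendsto (fun Q : ℕ => 4 / (σ - 1) * (Q : ℝ) ^ (-((σ - 1) / 4)) *
      eulerConst ((1 + σ) / 2)) atTop (𝓝 (4 / (σ - 1) * 0 * eulerConst ((1 + σ) / 2))) :=
    (((tendsto_rpow_neg_atTop (by linarith)).comp tendsto_natCast_atTop_atTop).const_mul
      _).mul_const _
  obtain ⟨Q, hQ, hQ1⟩ := ((hlim.eventually (eventually_le_nhds (show
    4 / (σ - 1) * 0 * eulerConst ((1 + σ) / 2) < η by simpa using hη0))).and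
      (eventually_ge_atTop 1)).exists
  refine ⟨Q, |1 / σ + 1 / (σ - 1) - 1| + 2 * ε, by positivity, fun K _ _ hRH => ?_⟩
  have h1 := (abs_le.1 (abs_ekConst_add_le K hRH hσ)).1
  have h2 := placeSum_le K hσ hQ1
  have h3 := mul_le_mul_of_nonneg_right hQ (Nat.cast_nonneg (finrank ℚ K) : (0 : ℝ) ≤ _)
  have h4 := (abs_le.1 (abs_archAt_sub_le K hR hC)).1
  have h5 := error_le hση hη0.le (Nat.cast_nonneg _) (hdeg K) (logGenus_nonneg K) hA.le
    (ε := ε) (by rw [hη]; field_simp)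
  linarith [neg_abs_le (1 / σ + 1 / (σ - 1) - 1)]

end FA.EulerKroneckerFamilies

end
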